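import Mathlib
import Fermat.Agent.LT.T7.Spec

/-!
# Row LT, tower T7, leaf T7.03 `DescTrivFromC` (helper557)

OFF-MAIN.  `DescAll + TwistAll ⇒ DescTrivAll` (statement: `LT/T7/Spec.lean` of helper797,
sha256 `41dbc37a6d3e401a…`, byte-identical copy).

Elementary: places of `K'` over places of `K` (`K'/K` Galois of degree `3`): every place of `K'`
lies over exactly one place of `K`, the residue degree is `1` or `3`, every place of `K` has a
place over it, finitely many places lie over (resp. under) a finite set; and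
`satakePow 3 (b a) (b³) = satakePow 3 a b` if `b³ = 1`.
-/

set_option autoImplicit false
set_option linter.style.haveILetI false
set_option linter.unusedSectionVars false

open AutomorphicForm IsDedekindDomain NumberField

noncomputable section

namespace Fermat.Agent.LT.T7.H557

open Fermat.Agent.LT.T7

variable {K K' : Type} [Field K] [NumberField K] [Field K'] [NumberField K'] [Algebra K K']

/-- `PlaceOver` is `LiesOver` for the underlying ideals. -/
theorem placeOver_iff_557 (v : HeightOneSpectrum (𝓞 K)) (w : HeightOneSpectrum (𝓞 K')) :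
    PlaceOver K K' v w ↔ v.asIdeal = Ideal.comap (algebraMap (𝓞 K) (𝓞 K')) w.asIdeal := by
  constructor
  · intro h
    ext x
    rw [Ideal.mem_comap]
    exact h x (algebraMap (𝓞 K) (𝓞 K') x) rfl
  · intro h x y hxy
    have hy : y = algebraMap (𝓞 K) (𝓞 K') x := by
      apply NumberField.RingOfIntegers.ext
      rw [hxy]
      rfl
    rw [h, Ideal.mem_comap, hy]

theorem placeOver_liesOver_557 {v : HeightOneSpectrum (𝓞 K)} {w : HeightOneSpectrum (𝓞 K')}
    (h : PlaceOver K K' v w) : w.asIdeal.LiesOver v.asIdeal :=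
  (Ideal.liesOver_iff _ _).2 ((placeOver_iff_557 v w).1 h)

/-- A place of `K'` lies over at most one place of `K`. -/
theorem placeOver_unique_557 {v v' : HeightOneSpectrum (𝓞 K)} {w : HeightOneSpectrum (𝓞 K')}
    (h : PlaceOver K K' v w) (h' : PlaceOver K K' v' w) : v = v' := by
  apply HeightOneSpectrum.ext
  rw [(placeOver_iff_557 v w).1 h, (placeOver_iff_557 v' w).1 h']

/-- Every place of `K` has a place of `K'` over it. -/
theorem exists_placeOver_557 (v : HeightOneSpectrum (𝓞 K)) :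
    ∃ w : HeightOneSpectrum (𝓞 K'), PlaceOver K K' v w := by
  haveI := v.isPrime
  obtain ⟨Q, -, hQ, hQv⟩ := Ideal.exists_ideal_over_prime_of_isIntegral
    (S := 𝓞 K') v.asIdeal (⊥ : Ideal (𝓞 K')) (by
      rw [Ideal.comap_bot_of_injective _ (NumberField.RingOfIntegers.algebraMap.injective K K')]
      exact bot_le)
  have hne : Q ≠ ⊥ := by
    rintro rfl
    rw [Ideal.comap_bot_of_injective _ (NumberField.RingOfIntegers.algebraMap.injective K K')]
      at hQv
    exact v.ne_bot hQv.symm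
  exact ⟨⟨Q, hQ, hne⟩, (placeOver_iff_557 v _).2 hQv.symm⟩

/-- `2 ≤ N v`. -/
theorem two_le_absNorm_557 (v : HeightOneSpectrum (𝓞 K)) : 2 ≤ Ideal.absNorm v.asIdeal := by
  have h0 : Ideal.absNorm v.asIdeal ≠ 0 := by
    rw [Ne, Ideal.absNorm_eq_zero_iff]
    exact v.ne_bot
  have h1 : Ideal.absNorm v.asIdeal ≠ 1 := by
    rw [Ne, Ideal.absNorm_eq_one_iff]
    exact v.isPrime.ne_top
  omega

/-- In a Galois extension of degree `3` the residue degree is `1` or `3`. -/
theorem resDeg_cases_557 (hcyc : IsCycExt K K' 3) {v : HeightOneSpectrum (𝓞 K)}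
    {w : HeightOneSpectrum (𝓞 K')} {f : ℕ} (h : HasResDeg K K' v w f) : f = 1 ∨ f = 3 := by
  haveI := hcyc.galois
  haveI : w.asIdeal.LiesOver v.asIdeal := placeOver_liesOver_557 h.1
  haveI := v.isPrime
  haveI := w.isPrime
  haveI : v.asIdeal.IsMaximal := v.isMaximal
  haveI : w.asIdeal.IsMaximal := w.isMaximal
  have hN := Ideal.absNorm_eq_pow_inertiaDeg'_of_liesOver w.asIdeal v.asIdeal v.isPrime v.ne_bot
  have hf : f = v.asIdeal.inertiaDeg' w.asIdeal :=
    Nat.pow_right_injective (two_le_absNorm_557 v) (h.2.symm.trans hN)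
  have h1 : v.asIdeal.inertiaDeg' w.asIdeal = w.asIdeal.inertiaDeg (𝓞 K) :=
    Ideal.inertiaDeg'_eq_inertiaDeg v.asIdeal w.asIdeal
  have h2 : v.asIdeal.inertiaDegIn (𝓞 K') = w.asIdeal.inertiaDeg (𝓞 K) :=
    Ideal.inertiaDegIn_eq_inertiaDeg v.asIdeal w.asIdeal Gal(K'/K)
  have h3 := Ideal.ncard_primesOver_mul_ramificationIdxIn_mul_inertiaDegIn v.asIdeal (𝓞 K')
    Gal(K'/K)
  rw [IsGalois.card_aut_eq_finrank, hcyc.degree] at h3
  have hdvd : f ∣ 3 := by
    rw [hf, h1, ← h2]
    exact ⟨(v.asIdeal.primesOver (𝓞 K')).ncard * v.asIdeal.ramificationIdxIn (𝓞 K'), by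
      rw [← h3]; ring⟩
  have := (Nat.dvd_prime Nat.prime_three).1 hdvd
  exact this

/-- The places of `K'` over a finite set of places of `K` form a finite set. -/
theorem finite_over_557 (S : Finset (HeightOneSpectrum (𝓞 K))) :
    {w : HeightOneSpectrum (𝓞 K') | ∃ v ∈ S, PlaceOver K K' v w}.Finite := by
  have h1 : ∀ v : HeightOneSpectrum (𝓞 K),
      {w : HeightOneSpectrum (𝓞 K') | PlaceOver K K' v w}.Finite := by
    intro v
    haveI := v.isPrime
    have hfin : (v.asIdeal.primesOver (𝓞 K')).Finite :=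
      IsDedekindDomain.primesOver_finite v.asIdeal (𝓞 K')
    have hinj : Function.Injective
        (fun w : HeightOneSpectrum (𝓞 K') => w.asIdeal) := by
      intro w w' h
      exact HeightOneSpectrum.ext h
    refine (hfin.preimage (hinj.injOn)).subset ?_
    intro w hw
    exact ⟨w.isPrime, placeOver_liesOver_557 hw⟩
  have h2 : {w : HeightOneSpectrum (𝓞 K') | ∃ v ∈ S, PlaceOver K K' v w}
      = ⋃ v ∈ S, {w : HeightOneSpectrum (𝓞 K') | PlaceOver K K' v w} := by
    ext w
    simp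
  rw [h2]
  exact S.finite_toSet.biUnion fun v _ => h1 v

/-- The places of `K` under a finite set of places of `K'` form a finite set. -/
theorem finite_under_557 (S : Finset (HeightOneSpectrum (𝓞 K'))) :
    {v : HeightOneSpectrum (𝓞 K) | ∃ w ∈ S, PlaceOver K K' v w}.Finite := by
  refine (S.finite_toSet.image (fun w => HeightOneSpectrum.under (𝓞 K) w)).subset ?_
  rintro v ⟨w, hw, hvw⟩
  refine ⟨w, hw, ?_⟩
  apply HeightOneSpectrum.ext
  simp only [HeightOneSpectrum.under_asIdeal]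
  rw [Ideal.under_def]
  exact ((placeOver_iff_557 v w).1 hvw).symm

/-- `satakePow 3 s e = s³ - 3 s e`. -/
theorem satakePow_three_557 (s e : ℂ) : satakePow 3 s e = s ^ 3 - 3 * s * e := by
  rw [show (3 : ℕ) = 1 + 2 from rfl, satakePow_add_two, show (1 + 1 : ℕ) = 0 + 2 from rfl,
    satakePow_add_two]
  simp only [satakePow_one, satakePow_zero, zero_add]
  ring

/-- The key identity of the twist at a place of residue degree `f ∈ {1, 3}` with `b ^ f = 1`. -/
theorem satakePow_twist_557 {f : ℕ} (hf : f = 1 ∨ f = 3) (a b : ℂ) (hb : b ^ f = 1) :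
    satakePow f (b * a) (b ^ 3) = satakePow f a b ∧ (b ^ 3) ^ f = 1 := by
  rcases hf with rfl | rfl
  · have hb1 : b = 1 := by simpa using hb
    subst hb1
    simp
  · refine ⟨?_, by rw [hb, one_pow]⟩
    rw [satakePow_three_557, satakePow_three_557]
    have h4 : b ^ 4 = b := by
      calc b ^ 4 = b ^ 3 * b := by ring
        _ = b := by rw [hb, one_mul]
    calc (b * a) ^ 3 - 3 * (b * a) * b ^ 3
        = b ^ 3 * a ^ 3 - 3 * a * b ^ 4 := by ring
      _ = a ^ 3 - 3 * a * b := by rw [hb, h4, one_mul]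

/-- **Leaf T7.03**: `DescAll + TwistAll ⇒ DescTrivAll`. -/
theorem descTrivFromC_557 : DescTrivFromC := by
  intro hDesc hTw K K' _ _ _ _ _ hcyc hcplx Φ hΦ hconst htriv
  obtain ⟨π₀, hπ₀, S₁, hbc⟩ := hDesc K K' 3 hcyc (by norm_num) hcplx Φ hΦ hconst
  obtain ⟨S₂, htr⟩ := htriv
  obtain ⟨π', hπ', S₃, htw⟩ := hTw K π₀ hπ₀
  classical
  -- the basic fact: outside the bad sets, `b ^ f = 1`
  have key : ∀ (w : HeightOneSpectrum (𝓞 K')) (v : HeightOneSpectrum (𝓞 K)) (f : ℕ),
      w ∉ S₁ → w ∉ S₂ → v ∉ S₃ → HasResDeg K K' v w f →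
      (Φ.a w = satakePow f (π'.a v) (π'.b v) ∧ Φ.b w = π'.b v ^ f) ∧ π'.b v = 1 := by
    intro w v f h1 h2 h3 hres
    obtain ⟨ha, hb⟩ := hbc w h1 v f hres
    obtain ⟨ha', hb'⟩ := htw v h3
    have hbf : π₀.b v ^ f = 1 := by rw [← hb, htr w h2]
    have hf := resDeg_cases_557 hcyc hres
    obtain ⟨e1, e2⟩ := satakePow_twist_557 hf (π₀.a v) (π₀.b v) hbf
    have hb3 : π₀.b v ^ 3 = 1 := by
      rcases hf with rfl | rfl
      · have : π₀.b v = 1 := by simpa using hbf
        rw [this, one_pow]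
      · exact hbf
    refine ⟨⟨?_, ?_⟩, ?_⟩
    · rw [ha, ha', hb', e1]
    · rw [hb', e2, htr w h2]
    · rw [hb', hb3]
  refine ⟨π', hπ', ?_, ?_⟩
  · -- `IsBC π' Φ`
    refine ⟨S₁ ∪ S₂ ∪ (finite_over_557 (K' := K') S₃).toFinset, ?_⟩
    intro w hw v f hres
    simp only [Finset.mem_union, Set.Finite.mem_toFinset, Set.mem_ofPred_eq, not_or,
      not_exists, not_and] at hw
    obtain ⟨⟨h1, h2⟩, h3⟩ := hw
    exact (key w v f h1 h2 (fun hv => h3 v hv hres.1) hres).1
  · -- `TrivCentral π'`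
    refine ⟨S₃ ∪ (finite_under_557 (K := K) (S₁ ∪ S₂)).toFinset, ?_⟩
    intro v hv
    simp only [Finset.mem_union, Set.Finite.mem_toFinset, Set.mem_ofPred_eq, not_or,
      not_exists, not_and] at hv
    obtain ⟨h3, h12⟩ := hv
    obtain ⟨w, hw⟩ := exists_placeOver_557 (K' := K') v
    have hw1 : w ∉ S₁ := fun h => h12 w (Or.inl h) hw
    have hw2 : w ∉ S₂ := fun h => h12 w (Or.inr h) hw
    -- the residue degree of `w` over `v`
    haveI : w.asIdeal.LiesOver v.asIdeal := placeOver_liesOver_557 hw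
    have hN := Ideal.absNorm_eq_pow_inertiaDeg'_of_liesOver w.asIdeal v.asIdeal v.isPrime
      v.ne_bot
    exact (key w v _ hw1 hw2 h3 ⟨hw, hN⟩).2

end Fermat.Agent.LT.T7.H557
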